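/-
S45, project CARAYOL-K, block K (architect helper65), leaf K2 (helper293):
port to `ModelK` of the chain `S36/BP/Inj/{Cover,Charts,Loc,Tors}` + `S36/BP/Inj.lean`.

Main result: `ModelK.inj_multi` -- a datum that is residually an `n`-th power along all the vertical
components and locally trivial at every closed point of the special fibre of both charts is globally
trivial.  All the generic lemmas are imported from the (frozen) files of `S36/BP` and `BAD/Inj`.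
-/
import Mathlib
import Fermat.Agent.S18.Defs
import Fermat.Agent.S18.Chart.Overlap
import Fermat.Agent.S18.Chart.Const
import Fermat.Agent.S18.Abs.Bridge3
import Fermat.Agent.S36.BP.Defs
import Fermat.Agent.S36.BP.Base
import Fermat.Agent.S36.BP.Approx
import Fermat.Agent.S36.BP.LocQep
import Fermat.Agent.S36.BP.Loc.Basic
import Fermat.Agent.S36.BP.Loc.Noeth
import Fermat.Agent.BAD.Inj.Core
import Fermat.Agent.BAD.Inj.LocalSub
import Fermat.Agent.BAD.Inj.LocalPir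
import Fermat.Agent.S36.BP.Inj.Cover
import Fermat.Agent.S36.BP.Inj.Charts
import Fermat.Agent.S36.BP.Inj.TorsAux
import Fermat.Agent.S36.BP.Inj.Loc
import Fermat.Agent.S45.K.Defs
import Fermat.Agent.S45.K.Symm

set_option autoImplicit false

noncomputable section

namespace Fermat.Agent.S45.K

open Fermat.Agent.S18 Fermat.Agent.S18.Abs Fermat.Agent.S36.BP IntermediateField IsLocalRing

variable {K₀ F : Type*} [Field K₀] [Field F] [Algebra K₀ F]
variable {A₀ : ValuationSubring K₀} {q : ℕ} {x : F} {κ : Type*} {V : κ → ValuationSubring F}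
  {ϖ : κ → F} {E : ℕ} {Eα Eβ : Subfield F} {Nα Nβ N₀ : F →* F}

/-! ### Cover -/

theorem ModelK.isCover (M : ModelK A₀ q x V ϖ E Eα Eβ Nα Nβ N₀) :
    IsCover (A₀.toSubring.map (algebraMap K₀ F)) x (chart A₀.toSubring x)
      (chart A₀.toSubring x⁻¹) := by
  have := M.base.charZero
  have hx0 : x ≠ 0 := fun h => M.transc (h ▸ isAlgebraic_zero)
  exact
    { noeth := isNoetherianRing_map M.base.unif
      le₁ := map_le_chart _
      le₂ := map_le_chart _
      x_ne := hx0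
      x_mem := self_mem_chart _
      inv_mem := self_mem_chart _
      fin₁ := chart_fin_of_transc M.base.unif M.transc M.finite
      fin₂ := chart_fin_of_transc M.base.unif M.inv.transc M.inv.finite
      overlap₁ := chart_overlap _ hx0
      overlap₂ := by
        have := chart_overlap (x := x⁻¹) A₀.toSubring (inv_ne_zero hx0)
        simpa using this }

/-! ### Charts -/

theorem ModelK.injB_q_ne_zero (M : ModelK A₀ q x V ϖ E Eα Eβ Nα Nβ N₀) : (q : F) ≠ 0 := by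
  have := M.base.charZero
  have : CharZero F := charZero_of_injective_algebraMap (algebraMap K₀ F).injective
  exact Nat.cast_ne_zero.2 M.base.prime.ne_zero

theorem ModelK.injB_vert (M : ModelK A₀ q x V ϖ E Eα Eβ Nα Nβ N₀) (c : κ) :
    (q : F) ∈ (V c).nonunits ∧ ∀ z ∈ (V c).nonunits, z ^ E / (q : F) ∈ V c := by
  obtain ⟨e, he, heE, hram⟩ := M.ram c
  exact injB_vert_aux (M.unif c) he heE hram M.injB_q_ne_zero

theorem ModelK.vertHyp (M : ModelK A₀ q x V ϖ E Eα Eβ Nα Nβ N₀) :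
    BAD.Inj.VertHyp V (q : F) E :=
  ⟨M.injB_q_ne_zero, fun c => (M.injB_vert c).1, fun c => (M.injB_vert c).2⟩

theorem ModelK.injB_x_mem (M : ModelK A₀ q x V ϖ E Eα Eβ Nα Nβ N₀) (c : κ) : x ∈ V c :=
  ((V c).valuation_le_one_iff x).mp (M.x_unit c).le

theorem ModelK.injB_x_inv_mem (M : ModelK A₀ q x V ϖ E Eα Eβ Nα Nβ N₀) (c : κ) : x⁻¹ ∈ V c := by
  rw [← ValuationSubring.valuation_le_one_iff, map_inv₀, M.x_unit c, inv_one]

theorem ModelK.injB_x_ne_zero (M : ModelK A₀ q x V ϖ E Eα Eβ Nα Nβ N₀) : x ≠ 0 :=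
  fun h => M.transc (h ▸ isAlgebraic_zero)

theorem ModelK.chartHyp (M : ModelK A₀ q x V ϖ E Eα Eβ Nα Nβ N₀) {n : ℕ} (hn : ¬ q ∣ n) :
    BAD.Inj.Chart V (q : F) n (chart A₀.toSubring x) := by
  have hn0 : 0 < n := Nat.pos_of_ne_zero (fun h => hn (h ▸ dvd_zero q))
  refine ⟨fun b hb i => LocQep.chart_le_of (M.const_mem i) (M.injB_x_mem i) b hb, natCast_mem _ q,
    fun z hz h => M.qep₁ z h hz, fun y hy => ?_, ?_⟩
  · rw [mem_chart_iff_isIntegral] at hy ⊢
    exact IsIntegral.of_pow hn0 hy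
  · have h1 : (n : K₀)⁻¹ ∈ A₀ := by
      rw [← ValuationSubring.valuation_le_one_iff, map_inv₀, M.base.natCast_unit hn, inv_one]
    have h2 : (n : F)⁻¹ = algebraMap K₀ F (n : K₀)⁻¹ := by
      rw [map_inv₀, map_natCast]
    rw [h2]
    exact map_le_chart A₀.toSubring ⟨(n : K₀)⁻¹, h1, rfl⟩

theorem ModelK.chartHyp_away (M : ModelK A₀ q x V ϖ E Eα Eβ Nα Nβ N₀) {n : ℕ} (hn : ¬ q ∣ n) :
    BAD.Inj.Chart V (q : F) n
      (awaySubring (chart A₀.toSubring x) x (self_mem_chart A₀.toSubring)) := by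
  have hn0 : 0 < n := Nat.pos_of_ne_zero (fun h => hn (h ▸ dvd_zero q))
  have hB := M.chartHyp hn
  have hx0 := M.injB_x_ne_zero
  have hxB : x ∈ chart A₀.toSubring x := self_mem_chart A₀.toSubring
  refine ⟨?_, le_awaySubring₁ _ _ _ hB.pi_mem, ?_, ?_, le_awaySubring₁ _ _ _ hB.minv⟩
  · rintro y ⟨N, hN⟩ i
    have : y = x⁻¹ ^ N * (x ^ N * y) := by
      rw [inv_pow]; field_simp
    rw [this]
    exact (V i).mul_mem _ _ ((V i).pow_mem (M.injB_x_inv_mem i) _) (hB.le _ hN i)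
  · rintro z hz ⟨N, hN⟩
    refine ⟨N, hB.qep _ (fun i => (V i).mul_mem _ _ ((V i).pow_mem (M.injB_x_mem i) _) (hz i)) ?_⟩
    have e : (q : F) * (x ^ N * z) = x ^ N * ((q : F) * z) := by ring
    rw [e]
    exact hN
  · rintro y ⟨N, hN⟩
    refine ⟨N, hB.root _ ?_⟩
    obtain ⟨k, rfl⟩ : ∃ k, n = k + 1 := ⟨n - 1, by omega⟩
    have : (x ^ N * y) ^ (k + 1) = (x ^ N) ^ k * (x ^ N * y ^ (k + 1)) := by ring
    rw [this]
    exact Subring.mul_mem _ (Subring.pow_mem _ (Subring.pow_mem _ hxB _) _) hN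

/-! ### Tors -/

theorem ModelK.tors (M : ModelK A₀ q x V ϖ E Eα Eβ Nα Nβ N₀) {n : ℕ} (hn0 : 0 < n) {u : F}
    (hu0 : u ≠ 0) (hne : ∃ a : F, a ≠ 0 ∧ a ^ n * u ∈ chart A₀.toSubring x)
    (hr1 : ∀ y : F, y ^ n ∈ chart A₀.toSubring x → y ∈ chart A₀.toSubring x)
    (hr2 : ∀ y : F, y ^ n ∈ chart A₀.toSubring x⁻¹ → y ∈ chart A₀.toSubring x⁻¹)
    (hr12 : ∀ y : F, y ^ n ∈ awaySubring (chart A₀.toSubring x) x (self_mem_chart A₀.toSubring) →
      y ∈ awaySubring (chart A₀.toSubring x) x (self_mem_chart A₀.toSubring)) :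
    ∃ k0 : ℕ, ∀ y ∈ rootGroup (awaySubring (chart A₀.toSubring x) x (self_mem_chart A₀.toSubring))
        n hn0 hr12 u, ∀ k : ℕ,
      (q : F) ^ k * y ∈ rootGroup (chart A₀.toSubring x) n hn0 hr1 u ⊔
        rootGroup (chart A₀.toSubring x⁻¹) n hn0 hr2 u →
      (q : F) ^ k0 * y ∈ rootGroup (chart A₀.toSubring x) n hn0 hr1 u ⊔
        rootGroup (chart A₀.toSubring x⁻¹) n hn0 hr2 u :=
  tors_of_isCover M.isCover (self_mem_chart A₀.toSubring)
    ⟨(q : K₀), natCast_mem A₀.toSubring q, map_natCast _ q⟩ hn0 hu0 hne hr1 hr2 hr12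

/-! ### Loc -/

/-- the centres of two distinct components through a point are incomparable. -/
theorem ModelK.exists_sep [Finite κ] (M : ModelK A₀ q x V ϖ E Eα Eβ Nα Nβ N₀) {R : Subring F}
    {i j : κ} (hi : Through R (V i)) (hj : R ≤ (V j).toSubring) (hij : i ≠ j) :
    ∃ r ∈ R, r ∈ (V j).nonunits ∧ r ∉ (V i).nonunits := by
  classical
  have hU := M.unif
  obtain ⟨h, -, hh⟩ := exists_prescribed_orders V ϖ hU M.inj (fun c => if c = j then 1 else 0)
  have hhi : (V i).valuation h = 1 := by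
    have := hh i
    simpa [hij] using this
  have hhj : (V j).valuation h < 1 := by
    have := hh j
    simp only [if_true, zpow_one] at this
    rw [this]
    exact approx_val_unif_lt_one (hU j)
  obtain ⟨s, hs, hs1, hsh⟩ := hi.loc h ((V i).valuation_le_one_iff _ |>.1 hhi.le)
  refine ⟨s * h, hsh, ?_, ?_⟩
  · exact BAD.Inj.mul_mem_nonunits _ (hj hs) ((V j).mem_nonunits_iff.2 hhj)
  · rw [(V i).mem_nonunits_iff, map_mul, hs1, hhi, one_mul]
    exact lt_irrefl _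

theorem ModelK.natCast_inv_mem_chart (M : ModelK A₀ q x V ϖ E Eα Eβ Nα Nβ N₀) {n : ℕ}
    (hn : ¬ q ∣ n) : (n : F)⁻¹ ∈ chart A₀.toSubring x := by
  have h1 : A₀.valuation (n : K₀) = 1 := M.base.natCast_unit hn
  have h2 : (n : K₀)⁻¹ ∈ A₀ := BAD.Inj.inv_mem_of_valuation_eq_one _ h1
  have h3 : (n : F)⁻¹ = algebraMap K₀ F (n : K₀)⁻¹ := by rw [map_inv₀, map_natCast]
  rw [h3]
  exact map_le_chart A₀.toSubring ⟨_, h2, rfl⟩

theorem ModelK.locTriv [Finite κ] (M : ModelK A₀ q x V ϖ E Eα Eβ Nα Nβ N₀) {n : ℕ} (hn : ¬ q ∣ n)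
    {u : F} {lam : κ → F} (H : BAD.Inj.ResRoot V lam n u)
    (h₁ : ∀ (𝔫 : Ideal (chart A₀.toSubring x)) [𝔫.IsMaximal], (q : chart A₀.toSubring x) ∈ 𝔫 →
      TrivDatumK V (locSub (chart A₀.toSubring x) 𝔫) n u lam)
    (hq : (q : F) ∈ chart A₀.toSubring x) :
    BAD.Inj.LocTriv V lam n u (chart A₀.toSubring x) ⟨(q : F), hq⟩ := by
  intro 𝔫 h𝔫max hq𝔫
  have hpr : 𝔫.IsPrime := h𝔫max.isPrime
  have hn0 : 0 < n := Nat.pos_of_ne_zero (fun h => hn (h ▸ dvd_zero q))
  have := M.base.charZero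
  have : CharZero F := charZero_of_injective_algebraMap (algebraMap K₀ F).injective
  have hnF : (n : F) ≠ 0 := Nat.cast_ne_zero.2 hn0.ne'
  have hq𝔫' : (q : chart A₀.toSubring x) ∈ 𝔫 := by
    have : (q : chart A₀.toSubring x) = ⟨(q : F), hq⟩ := Subtype.ext (by simp)
    rw [this]; exact hq𝔫
  obtain ⟨g, hgu, hval⟩ := h₁ 𝔫 hq𝔫'
  have hPt := M.pts₁ 𝔫 hq𝔫'
  have hBv : ∀ b ∈ chart A₀.toSubring x, ∀ c, b ∈ V c := fun b hb c =>
    LocQep.chart_le_of (M.const_mem c)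
      ((ValuationSubring.valuation_le_one_iff _ _).1 (M.x_unit c).le) b hb
  have : IsLocalRing (locSub (chart A₀.toSubring x) 𝔫) := isLocalRing_locSub _ 𝔫
  have : IsNoetherianRing (chart A₀.toSubring x) :=
    isNoetherianRing_chart M.base.unif M.transc M.finite
  have : IsNoetherianRing (locSub (chart A₀.toSubring x) 𝔫) := isNoetherianRing_locSub
  have hthr : ∀ c, locSub (chart A₀.toSubring x) 𝔫 ≤ (V c).toSubring →
      Through (locSub (chart A₀.toSubring x) 𝔫) (V c) := fun c hc =>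
    (hPt.through_or_away c).resolve_right (not_away_of_le hc)
  refine BAD.Inj.locTriv_at_of_pir hBv hn0 H 𝔫 (locSub (chart A₀.toSubring x) 𝔫)
    (isLocAt_locSub _ 𝔫) ?_ (fun c hc => (hthr c hc).isPrincipalIdealRing hc)
    (fun i j hi hj hij => M.exists_sep (hthr i hi) hj hij) g ⟨g ^ n * u, hgu.2.1⟩
    ((isUnit_iff_rUnit_inj _).2 hgu) rfl 1 (fun c hc => ?_)
  · rw [isUnit_iff_rUnit_inj]
    refine ⟨by simpa using hnF, Subtype.mem _, ?_⟩
    have : (((n : ℕ) : locSub (chart A₀.toSubring x) 𝔫) : F) = (n : F) := by simp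
    rw [this]
    exact le_locSub (M.natCast_inv_mem_chart hn)
  · obtain ⟨r, hr, h1, h2⟩ := hval c (hthr c hc)
    refine ⟨⟨r, hr⟩, ?_, (mem_maximalIdeal_iff_mem_rad _).2 h2⟩
    have hl0 := BAD.Inj.ne_zero_of_valuation_eq_one _ (H.unit c)
    have : g - lam c * r = lam c * (g / lam c - r) := by field_simp
    show g - lam c * r ∈ (V c).nonunits
    rw [this]
    exact BAD.Inj.mul_mem_nonunits _ (BAD.Inj.mem_of_valuation_eq_one _ (H.unit c))
      ((V c).mem_nonunits_iff.2 h1)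

/-! ### The adaptor -/

/-- **K-INJ**: a datum that is residually an `n`-th power along all the vertical components and
locally trivial at every closed point of the special fibre of both charts is globally trivial. -/
theorem ModelK.inj_multi [Finite κ] (M : ModelK A₀ q x V ϖ E Eα Eβ Nα Nβ N₀) {n : ℕ}
    (hn : ¬ q ∣ n) {u : F} {lam : κ → F} (hlam : ∀ c, (V c).valuation (lam c) = 1)
    (hlu : ∀ c, (V c).valuation (lam c ^ n * u - 1) < 1)
    (h₁ : ∀ (𝔫 : Ideal (chart A₀.toSubring x)) [𝔫.IsMaximal], (q : chart A₀.toSubring x) ∈ 𝔫 →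
      TrivDatumK V (locSub (chart A₀.toSubring x) 𝔫) n u lam)
    (h₂ : ∀ (𝔫 : Ideal (chart A₀.toSubring x⁻¹)) [𝔫.IsMaximal],
      (q : chart A₀.toSubring x⁻¹) ∈ 𝔫 →
      TrivDatumK V (locSub (chart A₀.toSubring x⁻¹) 𝔫) n u lam) :
    ∃ s : F, s ≠ 0 ∧ s ^ n * u ∈ chart A₀.toSubring x ∧ s ^ n * u ∈ chart A₀.toSubring x⁻¹ := by
  obtain ⟨c₀, -⟩ := M.unram
  have : Nonempty κ := ⟨c₀⟩
  have hn0 : 0 < n := Nat.pos_of_ne_zero (fun h => hn (h ▸ dvd_zero q))
  have := M.base.charZero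
  have : CharZero F := charZero_of_injective_algebraMap (algebraMap K₀ F).injective
  have hnF : (n : F) ≠ 0 := Nat.cast_ne_zero.2 hn0.ne'
  have H : BAD.Inj.ResRoot V lam n u :=
    ⟨hlam, fun c => (V c).mem_nonunits_iff.2 (hlu c)⟩
  have hB1 := M.chartHyp hn
  have hB2 := M.inv.chartHyp hn
  have hB12 := M.chartHyp_away hn
  have hL1 := M.locTriv hn H h₁ hB1.pi_mem
  have hL2 := M.inv.locTriv hn H h₂ hB2.pi_mem
  obtain ⟨a, ha, hal⟩ := BAD.Inj.exists_section M.vertHyp hn0 hB1 H hL1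
  have ha0 : a ≠ 0 := BAD.Inj.ne_zero_of_valuation_eq_one _
    (BAD.Inj.valuation_eq_one_of_sub_mem _ (H.unit c₀) (hal c₀))
  have hu0 : u ≠ 0 := BAD.Inj.ne_zero_of_valuation_eq_one _ (H.valuation_u c₀)
  obtain ⟨s, hs0, hs1, hs2, -⟩ := BAD.Inj.inj_multi M.vertHyp hn0 hnF H hB1 hB2 hB12
    (le_awaySubring₁ _ _ _) (le_awaySubring₂ M.isCover) hL1 hL2
    (M.tors hn0 hu0 ⟨a, ha0, ha⟩ hB1.root hB2.root hB12.root)
  exact ⟨s, hs0, hs1, hs2⟩

end Fermat.Agent.S45.K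

end
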