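/-
S45, project CARAYOL-K, block K, leaf K1 (helper188): port `Fin 3 → κ` of
`S36/BP/{Loc,LocQep,LocalRoot,Datum}.lean`: the local rings of a `ModelK` are points, the local form
of the `q`-expansion principle, local `n`-th roots, triviality of the gluing datum at the points
lying on one component.
-/
import Mathlib
import Fermat.Agent.S18.Defs
import Fermat.Agent.S18.Chart.Const
import Fermat.Agent.S18.Chart.Unif
import Fermat.Agent.S36.BP.Defs
import Fermat.Agent.S36.BP.Loc
import Fermat.Agent.S36.BP.LocQep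
import Fermat.Agent.S36.BP.LocalRoot.Abs
import Fermat.Agent.S36.BP.Datum
import Fermat.Agent.S45.K.Defs

set_option autoImplicit false
set_option linter.style.haveILetI false

noncomputable section

namespace Fermat.Agent.S45.K

open Fermat.Agent.S18 Fermat.Agent.S36.BP IntermediateField

variable {K₀ F : Type*} [Field K₀] [Field F] [Algebra K₀ F]
variable {A₀ : ValuationSubring K₀} {q : ℕ} {x : F} {κ : Type*} {V : κ → ValuationSubring F}
  {ϖ : κ → F} {E : ℕ} {Eα Eβ : Subfield F} {Nα Nβ N₀ : F →* F}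

/-- The local rings of the chart are points: generic form (only the base hypotheses are used). -/
theorem isPt_locSub_chart (hb : BaseHyp A₀ q) (htr : Transcendental K₀ x)
    (hfin : FiniteDimensional K₀⟮x⟯ F) (𝔫 : Ideal (chart A₀.toSubring x))
    [𝔫.IsMaximal] (h𝔫 : (q : chart A₀.toSubring x) ∈ 𝔫) :
    IsPt A₀ (locSub (chart A₀.toSubring x) 𝔫) := by
  haveI := hb.charZero
  have h₀ := hb.unif
  have hq : constToChart A₀ x ⟨(q : K₀), h₀.mem⟩ ∈ 𝔫 := by
    have : constToChart A₀ x ⟨(q : K₀), h₀.mem⟩ = (q : chart A₀.toSubring x) := by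
      apply Subtype.ext
      rw [coe_constToChart]
      simp
    rw [this]
    exact h𝔫
  have hconst_rad : ∀ a : K₀, A₀.valuation a < 1 →
      algebraMap K₀ F a ∈ rad (locSub (chart A₀.toSubring x) 𝔫) := by
    intro a ha
    obtain ⟨a', ha', e⟩ := exists_eq_unif_mul h₀ ha
    have h1 : constToChart A₀ x ⟨(q : K₀), h₀.mem⟩ * constToChart A₀ x ⟨a', ha'⟩ ∈ 𝔫 :=
      𝔫.mul_mem_right _ hq
    have h2 := coe_mem_rad_locSub h1
    have h3 : ((constToChart A₀ x ⟨(q : K₀), h₀.mem⟩ * constToChart A₀ x ⟨a', ha'⟩ :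
        chart A₀.toSubring x) : F) = algebraMap K₀ F a := by
      push_cast
      rw [coe_constToChart, coe_constToChart, e, map_mul]
    rwa [h3] at h2
  have hres := exists_const_sub_mem h₀ hb.algClosed htr hfin 𝔫 hq
  refine ⟨fun a ha b hb => add_mem_rad_locSub ha hb, ?_, hconst_rad, ?_, ?_, ?_⟩
  · intro a ha
    exact le_locSub (constToChart A₀ x ⟨a, ha⟩).2
  · rintro r ⟨b, s, hs, e⟩
    obtain ⟨β, hβ⟩ := hres b
    obtain ⟨σ, hσ⟩ := hres s
    have hs0 := coe_ne_zero_of_notMem hs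
    -- `σ` is a unit of `A₀`
    have hσn : constToChart A₀ x σ ∉ 𝔫 := by
      intro h
      apply hs
      have := 𝔫.add_mem hσ h
      simpa using this
    have hσ0 : (σ : K₀) ≠ 0 := by
      intro h
      apply hσn
      have : σ = 0 := Subtype.ext h
      rw [this, map_zero]
      exact 𝔫.zero_mem
    have hσu : ¬ A₀.valuation (σ : K₀) < 1 := by
      intro hlt
      obtain ⟨a', ha', e'⟩ := exists_eq_unif_mul h₀ hlt
      apply hσn
      have : σ = ⟨(q : K₀), h₀.mem⟩ * ⟨a', ha'⟩ := Subtype.ext e'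
      rw [this, map_mul]
      exact 𝔫.mul_mem_right _ hq
    have hσinv : (σ : K₀)⁻¹ ∈ A₀ := by
      rw [← A₀.valuation_le_one_iff, map_inv₀]
      have h1 : A₀.valuation (σ : K₀) = 1 :=
        le_antisymm ((A₀.valuation_le_one_iff _).mpr σ.2) (not_lt.mp hσu)
      rw [h1, inv_one]
    refine ⟨(β : K₀) * (σ : K₀)⁻¹, A₀.mul_mem _ _ β.2 hσinv, ?_⟩
    rw [mem_rad_locSub_iff]
    refine ⟨(b - constToChart A₀ x β) * constToChart A₀ x σ -
        constToChart A₀ x β * (s - constToChart A₀ x σ), s * constToChart A₀ x σ,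
      𝔫.sub_mem (𝔫.mul_mem_right _ hβ) (𝔫.mul_mem_left _ hσ),
      fun h => (Ideal.IsPrime.mem_or_mem inferInstance h).elim hs hσn, ?_⟩
    have hσF : algebraMap K₀ F (σ : K₀) ≠ 0 := (map_ne_zero _).mpr hσ0
    have key : (r - algebraMap K₀ F ((β : K₀) * (σ : K₀)⁻¹)) *
        ((s : F) * algebraMap K₀ F (σ : K₀)) =
        ((b : F) - algebraMap K₀ F (β : K₀)) * algebraMap K₀ F (σ : K₀) -
          algebraMap K₀ F (β : K₀) * ((s : F) - algebraMap K₀ F (σ : K₀)) := by
      rw [← e, map_mul, map_inv₀]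
      field_simp
      ring
    exact key
  · exact mem_locSub_of_isIntegral (fun y hy => mem_chart_of_isIntegral_chart _ _ _ hy)
  · haveI := isNoetherianRing_chart h₀ htr hfin
    exact isNoetherianRing_locSub

theorem ModelK.isPt (M : ModelK A₀ q x V ϖ E Eα Eβ Nα Nβ N₀) (𝔫 : Ideal (chart A₀.toSubring x))
    [𝔫.IsMaximal] (h𝔫 : (q : chart A₀.toSubring x) ∈ 𝔫) :
    IsPt A₀ (locSub (chart A₀.toSubring x) 𝔫) :=
  isPt_locSub_chart M.base M.transc M.finite 𝔫 h𝔫

theorem ModelK.chart_le (M : ModelK A₀ q x V ϖ E Eα Eβ Nα Nβ N₀) (c : κ) :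
    ∀ b ∈ chart A₀.toSubring x, b ∈ V c :=
  LocQep.chart_le_of (M.const_mem c)
    ((ValuationSubring.valuation_le_one_iff _ _).1 (M.x_unit c).le)

/-- the local form of the `q`-expansion principle. -/
theorem ModelK.qep_loc [Finite κ] (M : ModelK A₀ q x V ϖ E Eα Eβ Nα Nβ N₀)
    (𝔫 : Ideal (chart A₀.toSubring x))
    [𝔫.IsMaximal] (h𝔫 : (q : chart A₀.toSubring x) ∈ 𝔫) (y : F)
    (h1 : (q : F) * y ∈ locSub (chart A₀.toSubring x) 𝔫)
    (h2 : ∀ c, Through (locSub (chart A₀.toSubring x) 𝔫) (V c) → y ∈ V c) :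
    y ∈ locSub (chart A₀.toSubring x) 𝔫 := by
  classical
  haveI : Fintype κ := Fintype.ofFinite κ
  have hpr : 𝔫.IsPrime := Ideal.IsMaximal.isPrime inferInstance
  have hB : ∀ c, ∀ b ∈ chart A₀.toSubring x, b ∈ V c := M.chart_le
  have ht : ∀ c, ∃ t : chart A₀.toSubring x, t ∉ 𝔫 ∧ (t : F) * y ∈ V c := by
    intro c
    rcases (M.pts₁ 𝔫 h𝔫).through_or_away c with hT | hA
    · refine ⟨1, fun h => hpr.ne_top ((Ideal.eq_top_iff_one _).2 h), ?_⟩
      rw [Subring.coe_one, one_mul]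
      exact h2 c hT
    · obtain ⟨a, ha, hlt⟩ := LocQep.exists_of_away (hB c) hA
      obtain ⟨k, hk⟩ := LocQep.exists_pow_mul_mem (M.unif c) hlt y
      refine ⟨a ^ k, fun h => ha (hpr.mem_of_pow_mem k h), ?_⟩
      rw [Subring.coe_pow]
      exact hk
  choose t ht1 ht2 using ht
  obtain ⟨a, s, hs, has⟩ := h1
  set T : chart A₀.toSubring x := ∏ c, t c with hTdef
  have hTn : T ∉ 𝔫 := by
    intro h
    obtain ⟨c, -, hc⟩ := (hpr.prod_mem_iff).1 h
    exact ht1 c hc
  have hT : T * s ∉ 𝔫 := fun h => (hpr.mem_or_mem h).elim hTn hs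
  have hy' : ((T * s : chart A₀.toSubring x) : F) * y ∈ chart A₀.toSubring x := by
    apply M.qep₁
    · have e : (q : F) * (((T * s : chart A₀.toSubring x) : F) * y)
          = ((T * a : chart A₀.toSubring x) : F) := by
        push_cast
        rw [← has]
        ring
      rw [e]
      exact Subtype.property _
    · intro c
      have hsplit : T = t c * ∏ c' ∈ Finset.univ.erase c, t c' := by
        rw [hTdef, Finset.mul_prod_erase _ _ (Finset.mem_univ c)]
      have e : ((T * s : chart A₀.toSubring x) : F) * y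
          = (((∏ c' ∈ Finset.univ.erase c, t c') * s : chart A₀.toSubring x) : F) *
            ((t c : F) * y) := by
        rw [hsplit]
        push_cast
        ring
      rw [e]
      exact (V c).mul_mem _ _ (hB c _ (Subtype.property _)) (ht2 c)
  exact ⟨⟨_, hy'⟩, T * s, hT, mul_comm _ _⟩

theorem ModelK.exists_local_root [Finite κ] (M : ModelK A₀ q x V ϖ E Eα Eβ Nα Nβ N₀)
    (𝔫 : Ideal (chart A₀.toSubring x)) [𝔫.IsMaximal] (h𝔫 : (q : chart A₀.toSubring x) ∈ 𝔫)
    {n : ℕ} {u : F} (hu : ∀ c, (V c).valuation u = 1) (hd : HorDiv K₀ n u) :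
    ∃ g : F, RUnit (locSub (chart A₀.toSubring x) 𝔫) (g ^ n * u) :=
  LocalRoot.exists_local_root_of M.base.unif (M.isPt 𝔫 h𝔫) V (M.pts₁ 𝔫 h𝔫).princ
    (M.qep_loc 𝔫 h𝔫) hu hd

open DatumAux in
/-- at a point lying on one component only, the gluing datum is trivial. -/
theorem trivDatumK_of_single {R : Subring F} (hR : IsPt A₀ R) {c₀ : κ}
    (hA : ∀ c, c ≠ c₀ → Away R (V c)) {n : ℕ} (hn : n ≠ 0) {u : F} {lam : κ → F}
    (hlam : ∀ c, (V c).valuation (lam c) = 1)
    (hlu : ∀ c, (V c).valuation (lam c ^ n * u - 1) < 1) {g₀ : F} (hg₀ : RUnit R (g₀ ^ n * u)) :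
    TrivDatumK V R n u lam := by
  have honly : ∀ c, Through R (V c) → c = c₀ := by
    intro c hc
    by_contra hne
    exact not_through_of_away (hA c hne) hc
  by_cases hT : Through R (V c₀)
  · obtain ⟨r, hr, hlt, hrad⟩ := exists_rep hR hT hn (hlam c₀) (hlu c₀) hg₀
    have hrn : RUnit R (r ^ n) := by
      have := rUnit_add_rad hR hg₀ hrad
      rwa [add_sub_cancel] at this
    have hrU : RUnit R r := rUnit_of_pow hn hr hrn
    refine ⟨g₀ / r, ?_, ?_⟩
    · have e : (g₀ / r) ^ n * u = g₀ ^ n * u / r ^ n := by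
        rw [div_pow]; ring
      rw [e]
      exact rUnit_div hg₀ hrn
    · intro c hc
      obtain rfl := honly c hc
      refine ⟨1, R.one_mem, ?_, by rw [sub_self]; exact zero_mem_rad⟩
      have e : g₀ / r / lam c - 1 = (g₀ / lam c - r) / r := by
        have := hrU.1
        field_simp
      rw [e]
      exact div_lt_one _ hlt (valuation_eq_one_of_rUnit hT.le hrU)
  · exact ⟨g₀, hg₀, fun c hc => absurd (honly c hc ▸ hc) hT⟩

end Fermat.Agent.S45.K

end
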